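/-
Cluster A (F3), work package A5 (periods / eigen-character).  Owner: helper83.

Definitions shared with A3 (kappa) and the reduction lemma:
* `HomPar N`      : the lattice of parabolic homomorphisms `Γ₀(N) → ℤ` (Prelude `parabolicHoms`);
* `heckeCoset`    : for `γ ∈ Γ₀(N)` and `x ∈ ℙ¹(𝔽_ℓ)` the element `γ_x ∈ Γ₀(N)` with
                    `α_x γ = γ_x α_{γ̄ x}` (`α_x = heckeRep ℓ x`, `γ̄ = redMatrix ℓ γ`);
* `heckeHomAll`   : `(T_ℓ c)(γ) = ∑_x c(γ_x)` on `Hom(Γ₀(N), A)`, any abelian group `A`;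
* `heckeHom N ℓ`  : the `ℤ`-linear endomorphism `T_ℓ` of `HomPar N` (zero if `ℓ ∣ N`).
-/
import Mathlib
import Fermat.Prelude.Def_ModularCurve_PeriodMap
import Fermat.Prelude.Sol.S_ModularForm_heckeT_slash_eq_self_of_mem_Gamma0

set_option autoImplicit false

noncomputable section

namespace Fermat.Agent.F3EC

open CongruenceSubgroup Matrix.SpecialLinearGroup ModularCurve.Period
open scoped MatrixGroups
open P2MW.S_ModularForm_heckeT_slash_eq_self_of_mem_Gamma0.ModularForm.HeckeSlashInvariance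

/-- The lattice `Hom_par(Γ₀(N), ℤ)` of homomorphisms killing every element of trace `±2`. -/
abbrev HomPar (N : ℕ) : Type := parabolicHoms ℤ (Gamma0 N) ℤ

section Coset

variable {N : ℕ} {ℓ : ℕ} [Fact ℓ.Prime]

theorem exists_heckeCoset (hℓN : ¬ ℓ ∣ N) (γ : Gamma0 N) (x : OnePoint (ZMod ℓ)) :
    ∃ γ' : Gamma0 N,
      heckeRep ℓ x * mapGL ℝ (γ : SL(2, ℤ)) =
        mapGL ℝ (γ' : SL(2, ℤ)) * heckeRep ℓ (redMatrix ℓ (γ : SL(2, ℤ)) • x) := by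
  have hγ : (N : ℤ) ∣ (γ : SL(2, ℤ)) 1 0 :=
    (ZMod.intCast_zmod_eq_zero_iff_dvd _ _).mp (Gamma0_mem.mp γ.2)
  obtain ⟨g', hg', hmul⟩ := heckeRep_mul hℓN (γ : SL(2, ℤ)) hγ x
  exact ⟨⟨g', Gamma0_mem.mpr ((ZMod.intCast_zmod_eq_zero_iff_dvd _ _).mpr hg')⟩, hmul⟩

/-- The element `γ_x ∈ Γ₀(N)` with `α_x γ = γ_x α_{γ̄ x}`. -/
def heckeCoset (hℓN : ¬ ℓ ∣ N) (γ : Gamma0 N) (x : OnePoint (ZMod ℓ)) : Gamma0 N :=
  (exists_heckeCoset hℓN γ x).choose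

theorem heckeCoset_spec (hℓN : ¬ ℓ ∣ N) (γ : Gamma0 N) (x : OnePoint (ZMod ℓ)) :
    heckeRep ℓ x * mapGL ℝ (γ : SL(2, ℤ)) =
      mapGL ℝ ((heckeCoset hℓN γ x : Gamma0 N) : SL(2, ℤ)) *
        heckeRep ℓ (redMatrix ℓ (γ : SL(2, ℤ)) • x) :=
  (exists_heckeCoset hℓN γ x).choose_spec

theorem heckeCoset_unique (hℓN : ¬ ℓ ∣ N) (γ γ' : Gamma0 N) (x : OnePoint (ZMod ℓ))
    (h : heckeRep ℓ x * mapGL ℝ (γ : SL(2, ℤ)) =
      mapGL ℝ (γ' : SL(2, ℤ)) * heckeRep ℓ (redMatrix ℓ (γ : SL(2, ℤ)) • x)) :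
    γ' = heckeCoset hℓN γ x := by
  have h2 := heckeCoset_spec hℓN γ x
  rw [h] at h2
  have h3 := mul_right_cancel h2
  exact Subtype.ext (mapGL_injective h3)

theorem redMatrix_mul (g h : SL(2, ℤ)) :
    redMatrix ℓ (g * h) = redMatrix ℓ h * redMatrix ℓ g := by
  apply Units.ext
  ext i j
  fin_cases i <;> fin_cases j <;>
    simp [redMatrix, Matrix.mul_apply, Fin.sum_univ_two, Matrix.GeneralLinearGroup.mkOfDetNeZero] <;>
    ring

theorem redMatrix_one : redMatrix ℓ (1 : SL(2, ℤ)) = 1 := by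
  apply Units.ext
  ext i j
  fin_cases i <;> fin_cases j <;>
    simp [redMatrix, Matrix.GeneralLinearGroup.mkOfDetNeZero]

theorem redMatrix_pow (g : SL(2, ℤ)) (n : ℕ) : redMatrix ℓ (g ^ n) = redMatrix ℓ g ^ n := by
  induction n with
  | zero => simp [redMatrix_one]
  | succ n ih => rw [pow_succ', redMatrix_mul, ih, pow_succ]

theorem heckeCoset_mul (hℓN : ¬ ℓ ∣ N) (γ δ : Gamma0 N) (x : OnePoint (ZMod ℓ)) :
    heckeCoset hℓN (γ * δ) x =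
      heckeCoset hℓN γ x * heckeCoset hℓN δ (redMatrix ℓ (γ : SL(2, ℤ)) • x) := by
  symm
  apply heckeCoset_unique
  have h1 := heckeCoset_spec hℓN γ x
  have h2 := heckeCoset_spec hℓN δ (redMatrix ℓ (γ : SL(2, ℤ)) • x)
  rw [Subgroup.coe_mul, map_mul, ← mul_assoc, h1, mul_assoc, h2, Subgroup.coe_mul, map_mul,
    redMatrix_mul, mul_smul, mul_assoc]

theorem heckeCoset_pow (hℓN : ¬ ℓ ∣ N) (γ : Gamma0 N) (x : OnePoint (ZMod ℓ)) (n : ℕ) :
    heckeCoset hℓN (γ ^ n) x =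
      ((List.range n).map fun i =>
        heckeCoset hℓN γ ((redMatrix ℓ (γ : SL(2, ℤ)) ^ i) • x)).prod := by
  induction n with
  | zero =>
    simp only [pow_zero, List.range_zero, List.map_nil, List.prod_nil]
    symm
    apply heckeCoset_unique
    simp [redMatrix_one]
  | succ n ih =>
    rw [pow_succ, heckeCoset_mul, ih, List.range_succ, List.map_append, List.prod_append]
    simp [redMatrix_pow]

end Coset

section HeckeAll

variable {N : ℕ} {ℓ : ℕ} [Fact ℓ.Prime] {A : Type*} [AddCommGroup A]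

/-- `(T_ℓ c)(γ) = ∑_x c(γ_x)` as a function. -/
def heckeFun (hℓN : ¬ ℓ ∣ N) (c : Additive (Gamma0 N) →+ A) (γ : Gamma0 N) : A :=
  ∑ x : OnePoint (ZMod ℓ), c (Additive.ofMul (heckeCoset hℓN γ x))

theorem heckeFun_mul (hℓN : ¬ ℓ ∣ N) (c : Additive (Gamma0 N) →+ A) (γ δ : Gamma0 N) :
    heckeFun hℓN c (γ * δ) = heckeFun hℓN c γ + heckeFun hℓN c δ := by
  unfold heckeFun
  have hperm : ∑ x : OnePoint (ZMod ℓ),
      c (Additive.ofMul (heckeCoset hℓN δ (redMatrix ℓ (γ : SL(2, ℤ)) • x))) =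
      ∑ x : OnePoint (ZMod ℓ), c (Additive.ofMul (heckeCoset hℓN δ x)) :=
    Equiv.sum_comp (MulAction.toPerm (redMatrix ℓ (γ : SL(2, ℤ))))
      (fun x => c (Additive.ofMul (heckeCoset hℓN δ x)))
  rw [← hperm, ← Finset.sum_add_distrib]
  refine Finset.sum_congr rfl fun x _ => ?_
  rw [heckeCoset_mul, ofMul_mul, map_add]

theorem heckeFun_one (hℓN : ¬ ℓ ∣ N) (c : Additive (Gamma0 N) →+ A) :
    heckeFun hℓN c 1 = 0 := by
  have h := heckeFun_mul hℓN c 1 1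
  rw [mul_one] at h
  simpa using h

/-- `T_ℓ` on `Hom(Γ₀(N), A)` for `ℓ ∤ N`: `(T_ℓ c)(γ) = ∑_x c(γ_x)`. -/
def heckeHomAll (hℓN : ¬ ℓ ∣ N) (A : Type*) [AddCommGroup A] :
    (Additive (Gamma0 N) →+ A) →+ (Additive (Gamma0 N) →+ A) where
  toFun c :=
    { toFun := fun γ => heckeFun hℓN c (Additive.toMul γ)
      map_zero' := heckeFun_one hℓN c
      map_add' := fun γ δ => heckeFun_mul hℓN c (Additive.toMul γ) (Additive.toMul δ) }
  map_zero' := by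
    ext γ
    simp [heckeFun]
  map_add' c d := by
    ext γ
    simp [heckeFun, Finset.sum_add_distrib]

@[simp] theorem heckeHomAll_apply (hℓN : ¬ ℓ ∣ N) (c : Additive (Gamma0 N) →+ A) (γ : Gamma0 N) :
    heckeHomAll hℓN A c (Additive.ofMul γ) =
      ∑ x : OnePoint (ZMod ℓ), c (Additive.ofMul (heckeCoset hℓN γ x)) := rfl

end HeckeAll

section Parabolic

/-- Cayley–Hamilton for `SL(2, ℤ)`: `g ^ (n + 2) = tr g • g ^ (n + 1) - g ^ n` on traces. -/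
theorem trace_pow_add_two (g : SL(2, ℤ)) (n : ℕ) :
    ((g ^ (n + 2) : SL(2, ℤ)) : Matrix (Fin 2) (Fin 2) ℤ).trace =
      (g : Matrix (Fin 2) (Fin 2) ℤ).trace * ((g ^ (n + 1) : SL(2, ℤ)) : Matrix (Fin 2) (Fin 2) ℤ).trace
        - ((g ^ n : SL(2, ℤ)) : Matrix (Fin 2) (Fin 2) ℤ).trace := by
  have hdet : (g : Matrix (Fin 2) (Fin 2) ℤ) 0 0 * (g : Matrix (Fin 2) (Fin 2) ℤ) 1 1
      - (g : Matrix (Fin 2) (Fin 2) ℤ) 0 1 * (g : Matrix (Fin 2) (Fin 2) ℤ) 1 0 = 1 := by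
    have h := g.det_coe
    rwa [Matrix.det_fin_two] at h
  have hCH : (g : Matrix (Fin 2) (Fin 2) ℤ) * (g : Matrix (Fin 2) (Fin 2) ℤ) =
      (g : Matrix (Fin 2) (Fin 2) ℤ).trace • (g : Matrix (Fin 2) (Fin 2) ℤ) - 1 := by
    ext i j
    fin_cases i <;> fin_cases j <;>
      simp [-zsmul_eq_mul, Matrix.mul_apply, Fin.sum_univ_two, Matrix.trace_fin_two,
        Matrix.smul_apply] <;>
      first | ring1 | linear_combination (-1 : ℤ) * hdet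
  have hpow : ((g ^ (n + 2) : SL(2, ℤ)) : Matrix (Fin 2) (Fin 2) ℤ) =
      (g : Matrix (Fin 2) (Fin 2) ℤ).trace • ((g ^ (n + 1) : SL(2, ℤ)) : Matrix (Fin 2) (Fin 2) ℤ)
        - ((g ^ n : SL(2, ℤ)) : Matrix (Fin 2) (Fin 2) ℤ) := by
    simp only [Matrix.SpecialLinearGroup.coe_pow]
    rw [pow_add, pow_two, hCH, pow_succ]
    rw [mul_sub, mul_one, Matrix.mul_smul]
  rw [hpow, Matrix.trace_sub, Matrix.trace_smul, smul_eq_mul]

theorem trace_pow_sq_eq_four (g : SL(2, ℤ))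
    (hg : (g : Matrix (Fin 2) (Fin 2) ℤ).trace ^ 2 = 4) (n : ℕ) :
    ((g ^ n : SL(2, ℤ)) : Matrix (Fin 2) (Fin 2) ℤ).trace ^ 2 = 4 := by
  -- stronger: consecutive traces `t_n, t_{n+1}` satisfy `t_n^2 = 4` and `t_{n+1} = (t/2) t_n`,
  -- encoded as `2 * t_{n+1} = t * t_n`.
  have key : ∀ n : ℕ, ((g ^ n : SL(2, ℤ)) : Matrix (Fin 2) (Fin 2) ℤ).trace ^ 2 = 4 ∧
      2 * ((g ^ (n + 1) : SL(2, ℤ)) : Matrix (Fin 2) (Fin 2) ℤ).trace =
        (g : Matrix (Fin 2) (Fin 2) ℤ).trace * ((g ^ n : SL(2, ℤ)) : Matrix (Fin 2) (Fin 2) ℤ).trace := by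
    intro n
    induction n with
    | zero =>
      refine ⟨?_, ?_⟩
      · simp
      · simp; ring
    | succ n ih =>
      obtain ⟨h1, h2⟩ := ih
      have h3 := trace_pow_add_two g n
      set t := (g : Matrix (Fin 2) (Fin 2) ℤ).trace
      set a := ((g ^ n : SL(2, ℤ)) : Matrix (Fin 2) (Fin 2) ℤ).trace
      set b := ((g ^ (n + 1) : SL(2, ℤ)) : Matrix (Fin 2) (Fin 2) ℤ).trace
      set c := ((g ^ (n + 1 + 1) : SL(2, ℤ)) : Matrix (Fin 2) (Fin 2) ℤ).trace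
      have h3' : c = t * b - a := h3
      have hb : b ^ 2 = 4 := by
        have : (2 * b) ^ 2 = 16 := by rw [h2, mul_pow, hg, h1]; norm_num
        nlinarith
      refine ⟨hb, ?_⟩
      -- 2c = 2 t b - 2 a = t (t a) - 2 a = (t^2 - 2) a = 2 a;  and t b = t (t a)/2 = 2 a
      have h4 : t * (2 * b) = t * (t * a) := by rw [h2]
      have h5 : t * (t * a) = 4 * a := by rw [← mul_assoc, ← pow_two, hg]
      rw [h3']
      linarith
  exact (key n).1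

variable {N : ℕ} {ℓ : ℕ} [Fact ℓ.Prime]

theorem trace_heckeCoset_of_fixed (hℓN : ¬ ℓ ∣ N) (γ : Gamma0 N) (x : OnePoint (ZMod ℓ))
    (hx : redMatrix ℓ (γ : SL(2, ℤ)) • x = x) :
    (((heckeCoset hℓN γ x : Gamma0 N) : SL(2, ℤ)) : Matrix (Fin 2) (Fin 2) ℤ).trace =
      ((γ : SL(2, ℤ)) : Matrix (Fin 2) (Fin 2) ℤ).trace := by
  have h := heckeCoset_spec hℓN γ x
  rw [hx] at h
  have h2 : mapGL ℝ ((heckeCoset hℓN γ x : Gamma0 N) : SL(2, ℤ)) =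
      heckeRep ℓ x * mapGL ℝ (γ : SL(2, ℤ)) * (heckeRep ℓ x)⁻¹ := by
    rw [h, mul_inv_cancel_right]
  have h3 := congrArg (fun g : GL (Fin 2) ℝ => (g : Matrix (Fin 2) (Fin 2) ℝ).trace) h2
  simp only [Units.val_mul] at h3
  rw [Matrix.trace_units_conj] at h3
  simp only [mapGL_coe_matrix] at h3
  have h4 : ∀ g : SL(2, ℤ),
      ((Matrix.SpecialLinearGroup.map (algebraMap ℤ ℝ) g : SL(2, ℝ)) :
        Matrix (Fin 2) (Fin 2) ℝ).trace = (((g : Matrix (Fin 2) (Fin 2) ℤ).trace : ℤ) : ℝ) := by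
    intro g
    simp [Matrix.trace_fin_two]
  rw [h4, h4] at h3
  exact_mod_cast h3

theorem sum_range_heckeCoset_pow (hℓN : ¬ ℓ ∣ N) {A : Type*} [AddCommGroup A]
    (c : Additive (Gamma0 N) →+ A) (γ : Gamma0 N) (x : OnePoint (ZMod ℓ)) (n : ℕ) :
    c (Additive.ofMul (heckeCoset hℓN (γ ^ n) x)) =
      ∑ i ∈ Finset.range n,
        c (Additive.ofMul (heckeCoset hℓN γ ((redMatrix ℓ (γ : SL(2, ℤ)) ^ i) • x))) := by
  induction n with
  | zero =>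
    have h1 : heckeCoset hℓN (γ ^ 0) x = 1 := by
      symm
      apply heckeCoset_unique
      simp [redMatrix_one]
    rw [h1]
    simp
  | succ n ih =>
    rw [pow_succ, heckeCoset_mul, ofMul_mul, map_add, ih, Finset.sum_range_succ]
    simp [redMatrix_pow]

/-- `T_ℓ` preserves parabolic homomorphisms (values in a torsion-free group). -/
theorem heckeHomAll_parabolic (hℓN : ¬ ℓ ∣ N) {A : Type*} [AddCommGroup A] [IsAddTorsionFree A]
    {c : Additive (Gamma0 N) →+ A} (hc : IsParabolicHom (Gamma0 N) c) :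
    IsParabolicHom (Gamma0 N) (heckeHomAll hℓN A c) := by
  intro γ hγ
  have : NeZero ℓ := ⟨(Fact.out : ℓ.Prime).ne_zero⟩
  set π : GL (Fin 2) (ZMod ℓ) := redMatrix ℓ (γ : SL(2, ℤ)) with hπ
  set n : ℕ := orderOf π with hn
  have hnpos : 0 < n := orderOf_pos π
  have hzero : ∀ x : OnePoint (ZMod ℓ), c (Additive.ofMul (heckeCoset hℓN (γ ^ n) x)) = 0 := by
    intro x
    apply hc
    have hfix : redMatrix ℓ ((γ ^ n : Gamma0 N) : SL(2, ℤ)) • x = x := by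
      rw [SubmonoidClass.coe_pow, redMatrix_pow, ← hπ, hn, pow_orderOf_eq_one, one_smul]
    rw [trace_heckeCoset_of_fixed hℓN (γ ^ n) x hfix, SubmonoidClass.coe_pow]
    exact trace_pow_sq_eq_four _ hγ n
  have hsum : ∑ x : OnePoint (ZMod ℓ), ∑ i ∈ Finset.range n,
      c (Additive.ofMul (heckeCoset hℓN γ ((π ^ i) • x))) = 0 := by
    refine Finset.sum_eq_zero fun x _ => ?_
    rw [← sum_range_heckeCoset_pow hℓN c γ x n]
    exact hzero x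
  rw [Finset.sum_comm] at hsum
  have hperm : ∀ i ∈ Finset.range n,
      ∑ x : OnePoint (ZMod ℓ), c (Additive.ofMul (heckeCoset hℓN γ ((π ^ i) • x))) =
        ∑ x : OnePoint (ZMod ℓ), c (Additive.ofMul (heckeCoset hℓN γ x)) := fun i _ =>
    Equiv.sum_comp (MulAction.toPerm (π ^ i))
      (fun x => c (Additive.ofMul (heckeCoset hℓN γ x)))
  rw [Finset.sum_congr rfl hperm, Finset.sum_const, Finset.card_range] at hsum
  rw [heckeHomAll_apply]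
  have h0 : n • (∑ x : OnePoint (ZMod ℓ), c (Additive.ofMul (heckeCoset hℓN γ x))) = n • (0 : A) := by
    rw [hsum, smul_zero]
  exact IsAddTorsionFree.nsmul_right_injective hnpos.ne' h0

end Parabolic

section HeckeHom

/-- `T_ℓ` on all of `Hom(Γ₀(N), ℤ)`, as a `ℤ`-linear map (`ℓ ∤ N`). -/
def heckeLinAll {N : ℕ} {ℓ : ℕ} [Fact ℓ.Prime] (hℓN : ¬ ℓ ∣ N) :
    (Additive (Gamma0 N) →+ ℤ) →ₗ[ℤ] (Additive (Gamma0 N) →+ ℤ) where
  toFun := heckeHomAll hℓN ℤ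
  map_add' := map_add _
  map_smul' m _ := by
    ext γ
    simp [Finset.mul_sum]

/-- The Hecke operator `T_ℓ` on the lattice `HomPar N = Hom_par(Γ₀(N), ℤ)`:
`(T_ℓ c)(γ) = ∑_{x ∈ ℙ¹(𝔽_ℓ)} c(γ_x)` with `α_x γ = γ_x α_{γ̄ x}`.  It is `0` when `ℓ ∣ N`. -/
def heckeHom (N : ℕ) (ℓ : Nat.Primes) : HomPar N →ₗ[ℤ] HomPar N :=
  haveI : Fact (ℓ : ℕ).Prime := ⟨ℓ.2⟩
  if h : ¬ (ℓ : ℕ) ∣ N then
    (heckeLinAll h).restrict (fun _ hc => heckeHomAll_parabolic h hc)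
  else 0

theorem heckeHom_apply {N : ℕ} (ℓ : Nat.Primes) (hℓN : ¬ (ℓ : ℕ) ∣ N) (c : HomPar N)
    (γ : Gamma0 N) :
    haveI : Fact (ℓ : ℕ).Prime := ⟨ℓ.2⟩
    ((heckeHom N ℓ c : HomPar N) : Additive (Gamma0 N) →+ ℤ) (Additive.ofMul γ) =
      ∑ x : OnePoint (ZMod (ℓ : ℕ)),
        (c : Additive (Gamma0 N) →+ ℤ) (Additive.ofMul (heckeCoset hℓN γ x)) := by
  rw [heckeHom, dif_pos hℓN]
  rfl

theorem heckeHom_coe {N : ℕ} (ℓ : Nat.Primes) (hℓN : ¬ (ℓ : ℕ) ∣ N) (c : HomPar N) :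
    haveI : Fact (ℓ : ℕ).Prime := ⟨ℓ.2⟩
    ((heckeHom N ℓ c : HomPar N) : Additive (Gamma0 N) →+ ℤ) =
      heckeHomAll hℓN ℤ (c : Additive (Gamma0 N) →+ ℤ) := by
  rw [heckeHom, dif_pos hℓN]
  rfl

end HeckeHom

end Fermat.Agent.F3EC
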