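/-
Cluster A (F3), piece P1 for the p-adic eigenclass (helper21's request): the Hecke operator
`T_ℓ` on `Hom(Γ₀(N), A)` commutes with the Prelude involution `charInvolution`
(conjugation by `diag(1, -1)`).  Owner: helper83.
-/
import Fermat.Agent.F3.EigenChar.Defs
import Fermat.Prelude.Def_ModularCurve_PeriodHomPair

set_option autoImplicit false

noncomputable section

namespace Fermat.Agent.F3EC

open CongruenceSubgroup Matrix.SpecialLinearGroup ModularCurve.Period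
open scoped MatrixGroups
open P2MW.S_ModularForm_heckeT_slash_eq_self_of_mem_Gamma0.ModularForm.HeckeSlashInvariance

/-- `diag(1, -1)` in `GL₂(ℝ)`. -/
def jReal : GL (Fin 2) ℝ :=
  Matrix.GeneralLinearGroup.mkOfDetNeZero !![(1 : ℝ), 0; 0, -1] (by simp [Matrix.det_fin_two_of])

/-- `diag(1, -1)` in `GL₂(𝔽_ℓ)`. -/
def jMod (ℓ : ℕ) [Fact ℓ.Prime] : GL (Fin 2) (ZMod ℓ) :=
  Matrix.GeneralLinearGroup.mkOfDetNeZero !![(1 : ZMod ℓ), 0; 0, -1]
    (by simp [Matrix.det_fin_two_of])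

theorem jReal_mul_self : jReal * jReal = 1 := by
  apply Units.ext
  ext i j
  fin_cases i <;> fin_cases j <;>
    simp [jReal, Matrix.GeneralLinearGroup.mkOfDetNeZero, Matrix.mul_apply, Fin.sum_univ_two]

theorem jMod_mul_self (ℓ : ℕ) [Fact ℓ.Prime] : jMod ℓ * jMod ℓ = 1 := by
  apply Units.ext
  ext i j
  fin_cases i <;> fin_cases j <;>
    simp [jMod, Matrix.GeneralLinearGroup.mkOfDetNeZero, Matrix.mul_apply, Fin.sum_univ_two]

theorem mapGL_jConjSL (g : SL(2, ℤ)) :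
    mapGL ℝ (jConjSL g) * jReal = jReal * mapGL ℝ g := by
  apply Units.ext
  ext i j
  fin_cases i <;> fin_cases j <;>
    simp [jReal, Matrix.GeneralLinearGroup.mkOfDetNeZero, Matrix.mul_apply, Fin.sum_univ_two,
      jConjMat]

theorem redMatrix_jConjSL {ℓ : ℕ} [Fact ℓ.Prime] (g : SL(2, ℤ)) :
    redMatrix ℓ (jConjSL g) * jMod ℓ = jMod ℓ * redMatrix ℓ g := by
  apply Units.ext
  ext i j
  fin_cases i <;> fin_cases j <;>
    simp [jMod, redMatrix, Matrix.GeneralLinearGroup.mkOfDetNeZero, Matrix.mul_apply,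
      Fin.sum_univ_two, jConjMat]

theorem jMod_smul_infty (ℓ : ℕ) [Fact ℓ.Prime] :
    jMod ℓ • (OnePoint.infty : OnePoint (ZMod ℓ)) = OnePoint.infty := by
  rw [OnePoint.smul_infty_eq_ite]
  simp [jMod, Matrix.GeneralLinearGroup.mkOfDetNeZero]

theorem jMod_smul_coe (ℓ : ℕ) [Fact ℓ.Prime] (k : ZMod ℓ) :
    jMod ℓ • ((k : ZMod ℓ) : OnePoint (ZMod ℓ)) = ((-k : ZMod ℓ) : OnePoint (ZMod ℓ)) := by
  rw [OnePoint.smul_some_eq_ite]
  simp [jMod, Matrix.GeneralLinearGroup.mkOfDetNeZero, div_neg]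

/-- `J α_x J⁻¹ = t α_{J x}` with `t` a power of the translation `T`. -/
theorem exists_jReal_heckeRep {ℓ : ℕ} [Fact ℓ.Prime] (N : ℕ) (x : OnePoint (ZMod ℓ)) :
    ∃ t : Gamma0 N, jReal * heckeRep ℓ x =
      mapGL ℝ (t : SL(2, ℤ)) * heckeRep ℓ (jMod ℓ • x) * jReal := by
  have hℓ : ℓ ≠ 0 := (Fact.out : ℓ.Prime).ne_zero
  induction x using OnePoint.rec with
  | infty =>
    refine ⟨1, ?_⟩
    rw [jMod_smul_infty]
    apply Units.ext
    ext i j
    fin_cases i <;> fin_cases j <;>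
      simp [jReal, heckeRep, Matrix.GeneralLinearGroup.mkOfDetNeZero, Matrix.mul_apply,
        Fin.sum_univ_two, ModularForm.val_heckeDiagMatrix hℓ]
  | coe k =>
    rw [jMod_smul_coe]
    -- `k.val + (-k).val = ℓ * s`
    obtain ⟨s, hs⟩ : (ℓ : ℤ) ∣ (k.val : ℤ) + ((-k : ZMod ℓ).val : ℤ) := by
      rw [← ZMod.intCast_zmod_eq_zero_iff_dvd]
      push_cast
      rw [ZMod.natCast_zmod_val, ZMod.natCast_zmod_val, add_neg_cancel]
    have hT : (ModularGroup.T ^ (-s) : SL(2, ℤ)) ∈ Gamma0 N := by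
      rw [Gamma0_mem, ModularGroup.coe_T_zpow]
      simp
    refine ⟨⟨ModularGroup.T ^ (-s), hT⟩, ?_⟩
    have hsR : ((k.val : ℝ)) + (((-k : ZMod ℓ).val : ℕ) : ℝ) = (ℓ : ℝ) * (s : ℝ) := by
      exact_mod_cast hs
    have hTmat : ((mapGL ℝ (ModularGroup.T ^ (-s) : SL(2, ℤ)) : GL (Fin 2) ℝ) :
        Matrix (Fin 2) (Fin 2) ℝ) = !![(1 : ℝ), -(s : ℝ); 0, 1] := by
      rw [mapGL_coe_matrix, Matrix.SpecialLinearGroup.map_apply_coe, ModularGroup.coe_T_zpow]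
      ext i j
      fin_cases i <;> fin_cases j <;> simp
    apply Units.ext
    show (jReal : Matrix (Fin 2) (Fin 2) ℝ) * (heckeRep ℓ (k : OnePoint (ZMod ℓ))).val =
      (mapGL ℝ (ModularGroup.T ^ (-s) : SL(2, ℤ)) : GL (Fin 2) ℝ).val *
        (heckeRep ℓ ((-k : ZMod ℓ) : OnePoint (ZMod ℓ))).val * (jReal : Matrix (Fin 2) (Fin 2) ℝ)
    rw [hTmat, heckeRep_coe, heckeRep_coe, ModularForm.val_heckeMatrix hℓ,
      ModularForm.val_heckeMatrix hℓ]
    ext i j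
    fin_cases i <;> fin_cases j <;>
      simp [jReal, Matrix.GeneralLinearGroup.mkOfDetNeZero, Matrix.mul_apply, Fin.sum_univ_two]
    have hsR' : ((k.cast : ℝ)) + (((-k : ZMod ℓ).cast : ℝ)) = (ℓ : ℝ) * (s : ℝ) := by
      rw [← ZMod.natCast_val, ← ZMod.natCast_val]
      exact hsR
    linear_combination hsR'

/-- The translation `t_x ∈ Γ₀(N)` with `J α_x J⁻¹ = t_x α_{J x}`. -/
def jTwist {ℓ : ℕ} [Fact ℓ.Prime] (N : ℕ) (x : OnePoint (ZMod ℓ)) : Gamma0 N :=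
  (exists_jReal_heckeRep N x).choose

theorem jTwist_spec {ℓ : ℕ} [Fact ℓ.Prime] (N : ℕ) (x : OnePoint (ZMod ℓ)) :
    jReal * heckeRep ℓ x =
      mapGL ℝ ((jTwist N x : Gamma0 N) : SL(2, ℤ)) * heckeRep ℓ (jMod ℓ • x) * jReal :=
  (exists_jReal_heckeRep N x).choose_spec

variable {N : ℕ} {ℓ : ℕ} [Fact ℓ.Prime]

theorem heckeCoset_jConj (hℓN : ¬ ℓ ∣ N) (γ : Gamma0 N) (x : OnePoint (ZMod ℓ)) :
    heckeCoset hℓN (jConjGamma0 N γ) (jMod ℓ • x) =
      (jTwist N x)⁻¹ * jConjGamma0 N (heckeCoset hℓN γ x) *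
        jTwist N (redMatrix ℓ (γ : SL(2, ℤ)) • x) := by
  symm
  apply heckeCoset_unique
  have hidx : redMatrix ℓ ((jConjGamma0 N γ : Gamma0 N) : SL(2, ℤ)) • (jMod ℓ • x) =
      jMod ℓ • (redMatrix ℓ (γ : SL(2, ℤ)) • x) := by
    rw [← mul_smul, ← mul_smul, jConjGamma0_coe, redMatrix_jConjSL]
  rw [hidx]
  have h1 := jTwist_spec N x
  have h2 := jTwist_spec N (redMatrix ℓ (γ : SL(2, ℤ)) • x)
  have h3 := mapGL_jConjSL (γ : SL(2, ℤ))
  have h4 := mapGL_jConjSL ((heckeCoset hℓN γ x : Gamma0 N) : SL(2, ℤ))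
  have h5 := heckeCoset_spec hℓN γ x
  have h6 := jReal_mul_self
  simp only [Subgroup.coe_mul, Subgroup.coe_inv, map_mul, map_inv, jConjGamma0_coe]
  set J := jReal
  set a := heckeRep ℓ x
  set a' := heckeRep ℓ (jMod ℓ • x)
  set b := heckeRep ℓ (redMatrix ℓ (γ : SL(2, ℤ)) • x)
  set b' := heckeRep ℓ (jMod ℓ • (redMatrix ℓ (γ : SL(2, ℤ)) • x))
  set g := mapGL ℝ (γ : SL(2, ℤ))
  set g' := mapGL ℝ (jConjSL (γ : SL(2, ℤ)))
  set h := mapGL ℝ ((heckeCoset hℓN γ x : Gamma0 N) : SL(2, ℤ))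
  set h' := mapGL ℝ (jConjSL ((heckeCoset hℓN γ x : Gamma0 N) : SL(2, ℤ)))
  set t := mapGL ℝ ((jTwist N x : Gamma0 N) : SL(2, ℤ))
  set u := mapGL ℝ ((jTwist N (redMatrix ℓ (γ : SL(2, ℤ)) • x) : Gamma0 N) : SL(2, ℤ))
  have ha' : a' = t⁻¹ * (J * a) * J⁻¹ := by rw [h1]; group
  have hb' : b' = u⁻¹ * (J * b) * J⁻¹ := by rw [h2]; group
  have hg' : g' = (J * g) * J⁻¹ := by rw [← h3]; group
  have hh' : h' = (J * h) * J⁻¹ := by rw [← h4]; group
  calc a' * g' = t⁻¹ * J * (a * g) * J⁻¹ := by rw [ha', hg']; group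
    _ = t⁻¹ * J * (h * b) * J⁻¹ := by rw [h5]
    _ = t⁻¹ * h' * u * b' := by rw [hh', hb']; group

/-- **P1.** The Hecke operator `T_ℓ` commutes with the involution `charInvolution`. -/
theorem heckeHomAll_charInvolution' (hℓN : ¬ ℓ ∣ N) (R : Type*) [Semiring R] (A : Type*)
    [AddCommGroup A] [Module R A] (c : Additive (Gamma0 N) →+ A) :
    heckeHomAll hℓN A (charInvolution N R A c) = charInvolution N R A (heckeHomAll hℓN A c) := by
  refine AddMonoidHom.ext fun γ => ?_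
  obtain ⟨γ, rfl⟩ := Additive.ofMul.surjective γ
  rw [heckeHomAll_apply, charInvolution_apply, toMul_ofMul, heckeHomAll_apply]
  have hperm : ∑ x : OnePoint (ZMod ℓ),
      c (Additive.ofMul (heckeCoset hℓN (jConjGamma0 N γ) (jMod ℓ • x))) =
      ∑ x : OnePoint (ZMod ℓ), c (Additive.ofMul (heckeCoset hℓN (jConjGamma0 N γ) x)) :=
    Equiv.sum_comp (MulAction.toPerm (jMod ℓ))
      (fun x => c (Additive.ofMul (heckeCoset hℓN (jConjGamma0 N γ) x)))
  have hperm2 : ∑ x : OnePoint (ZMod ℓ),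
      c (Additive.ofMul (jTwist N (redMatrix ℓ (γ : SL(2, ℤ)) • x))) =
      ∑ x : OnePoint (ZMod ℓ), c (Additive.ofMul (jTwist N x)) :=
    Equiv.sum_comp (MulAction.toPerm (redMatrix ℓ (γ : SL(2, ℤ))))
      (fun x => c (Additive.ofMul (jTwist N x)))
  rw [← hperm]
  have hterm : ∀ x : OnePoint (ZMod ℓ),
      c (Additive.ofMul (heckeCoset hℓN (jConjGamma0 N γ) (jMod ℓ • x))) =
        (charInvolution N R A c) (Additive.ofMul (heckeCoset hℓN γ x)) +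
          (c (Additive.ofMul (jTwist N (redMatrix ℓ (γ : SL(2, ℤ)) • x))) -
            c (Additive.ofMul (jTwist N x))) := by
    intro x
    rw [heckeCoset_jConj, ofMul_mul, ofMul_mul, ofMul_inv, map_add, map_add, map_neg,
      charInvolution_apply, toMul_ofMul]
    abel
  rw [Finset.sum_congr rfl fun x _ => hterm x, Finset.sum_add_distrib, Finset.sum_sub_distrib,
    hperm2, sub_self, add_zero]

theorem heckeHomAll_charInvolution (hℓN : ¬ ℓ ∣ N) (c : Additive (Gamma0 N) →+ ℂ) :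
    heckeHomAll hℓN ℂ (charInvolution N ℂ ℂ c) = charInvolution N ℂ ℂ (heckeHomAll hℓN ℂ c) :=
  heckeHomAll_charInvolution' hℓN ℂ ℂ c

end Fermat.Agent.F3EC
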