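/-
Cluster A (F3), work package A5: a normalised eigenform (Prelude sense: multiplicative
q-coefficients) is an eigenvector of `T_ℓ`, `ℓ ∤ N`, with eigenvalue `a_ℓ`.  Owner: helper83.
-/
import Fermat.Agent.S49.Basic

set_option autoImplicit false

noncomputable section

namespace Fermat.Agent.F3EC

open CongruenceSubgroup ModularFormClass UpperHalfPlane Fermat.Agent.S49.Forms

variable {N : ℕ}

/-- The Hecke relation `a_{nℓ} + [ℓ ∣ n] ℓ a_{n/ℓ} = a_ℓ a_n` for a normalised eigenform. -/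
theorem qCoeff_hecke_relation {g : CuspForm (Gamma0 N) 2} (hg : g.IsNormalizedEigenform)
    {ℓ : ℕ} (hℓ : ℓ.Prime) (hℓN : ¬ ℓ ∣ N) (n : ℕ) :
    qCoeff ⇑g (n * ℓ) + (if ℓ ∣ n then (ℓ : ℂ) * qCoeff ⇑g (n / ℓ) else 0) =
      qCoeff ⇑g ℓ * qCoeff ⇑g n := by
  rcases Nat.eq_zero_or_pos n with rfl | hn
  · simp [qc_zero_index]
  obtain ⟨r, m, hm, rfl⟩ := Nat.exists_eq_pow_mul_and_not_dvd hn.ne' ℓ hℓ.ne_one
  have hcop : ∀ s : ℕ, Nat.Coprime (ℓ ^ s) m := fun s =>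
    Nat.Coprime.pow_left s ((Nat.Prime.coprime_iff_not_dvd hℓ).mpr hm)
  rcases r with _ | s
  · -- ℓ ∤ n
    have hnd : ¬ ℓ ∣ ℓ ^ 0 * m := by simpa using hm
    rw [if_neg hnd, add_zero]
    have h1 : ℓ ^ 0 * m * ℓ = ℓ * m := by ring
    have h2 : ℓ ^ 0 * m = m := by ring
    rw [h1, h2, hg.qCoeff_mul_of_coprime ℓ m ((Nat.Prime.coprime_iff_not_dvd hℓ).mpr hm)]
  · have hd : ℓ ∣ ℓ ^ (s + 1) * m := Dvd.dvd.mul_right (dvd_pow_self ℓ (Nat.succ_ne_zero s)) m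
    rw [if_pos hd]
    have h1 : ℓ ^ (s + 1) * m * ℓ = ℓ ^ (s + 2) * m := by ring
    have h2 : ℓ ^ (s + 1) * m / ℓ = ℓ ^ s * m := by
      rw [pow_succ, mul_assoc, mul_comm ℓ m, ← mul_assoc]
      exact Nat.mul_div_cancel _ hℓ.pos
    rw [h1, h2, hg.qCoeff_mul_of_coprime _ _ (hcop (s + 2)),
      hg.qCoeff_mul_of_coprime _ _ (hcop s), hg.qCoeff_mul_of_coprime _ _ (hcop (s + 1)),
      hg.qCoeff_prime_pow_of_not_dvd ℓ s hℓ hℓN]
    ring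

/-- A normalised eigenform is an eigenvector of `T_ℓ` (`ℓ ∤ N`) with eigenvalue `a_ℓ`. -/
theorem heckeTLin_eq_smul [NeZero N] {g : CuspForm (Gamma0 N) 2} (hg : g.IsNormalizedEigenform)
    {ℓ : ℕ} (hℓ : ℓ.Prime) (hℓN : ¬ ℓ ∣ N) :
    CuspForm.heckeTLin 2 hℓ hℓN g = qCoeff ⇑g ℓ • g := by
  apply qLin_injective N
  funext n
  rw [qLin_apply, qLin_apply, qc_heckeT, qc_smul]
  exact qCoeff_hecke_relation hg hℓ hℓN n

theorem ne_zero_of_isNormalizedEigenform {g : CuspForm (Gamma0 N) 2}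
    (hg : g.IsNormalizedEigenform) : g ≠ 0 := by
  intro h
  have h1 := hg.qCoeff_one
  rw [h, qc_zero_form] at h1
  exact zero_ne_one h1

end Fermat.Agent.F3EC
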