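/-
Cluster A (F3), work package A5: the lattice `HomPar N = Hom_par(Γ₀(N), ℤ)` is a finite free
`ℤ`-module, and the comparison map `ℂ ⊗ HomPar N → Hom(Γ₀(N), ℂ)` is injective with image
the parabolic homomorphisms.  Owner: helper83.
-/
import Fermat.Agent.F3.EigenChar.Defs
import Fermat.Agent.S22.GammaFG

set_option autoImplicit false

noncomputable section

namespace Fermat.Agent.F3EC

open CongruenceSubgroup ModularCurve.Period
open scoped MatrixGroups TensorProduct

variable {N : ℕ}

/-! ### Homomorphisms are determined on generators -/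

/-- If a homomorphism `Γ → A` vanishes on a generating set it vanishes. -/
theorem hom_eq_zero_of_closure {Γ : Type*} [Group Γ] {A : Type*} [AddCommGroup A]
    (c : Additive Γ →+ A) {S : Set Γ} (hS : Subgroup.closure S = ⊤)
    (h : ∀ s ∈ S, c (Additive.ofMul s) = 0) : c = 0 := by
  let K : Subgroup Γ :=
    { carrier := {γ | c (Additive.ofMul γ) = 0}
      one_mem' := by simp
      mul_mem' := by
        intro a b ha hb
        simp only [Set.mem_ofPred_eq] at ha hb ⊢
        rw [ofMul_mul, map_add, ha, hb, add_zero]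
      inv_mem' := by
        intro a ha
        simp only [Set.mem_ofPred_eq] at ha ⊢
        rw [ofMul_inv, map_neg, ha, neg_zero] }
  have hK : K = ⊤ := by
    rw [eq_top_iff, ← hS, Subgroup.closure_le]
    exact h
  refine AddMonoidHom.ext fun γ => ?_
  have : Additive.toMul γ ∈ K := by rw [hK]; exact Subgroup.mem_top _
  exact this

/-- Evaluation of homomorphisms `Γ → A` at the points of a set, as an `R`-linear map. -/
def evalOn {Γ : Type*} [Group Γ] (R : Type*) [Semiring R] (A : Type*) [AddCommGroup A] [Module R A]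
    (S : Set Γ) : (Additive Γ →+ A) →ₗ[R] (S → A) where
  toFun c s := c (Additive.ofMul (s : Γ))
  map_add' _ _ := rfl
  map_smul' _ _ := rfl

@[simp] theorem evalOn_apply {Γ : Type*} [Group Γ] (R : Type*) [Semiring R] (A : Type*)
    [AddCommGroup A] [Module R A] (S : Set Γ) (c : Additive Γ →+ A) (s : S) :
    evalOn R A S c s = c (Additive.ofMul (s : Γ)) := rfl

theorem evalOn_injective {Γ : Type*} [Group Γ] (R : Type*) [Semiring R] (A : Type*)
    [AddCommGroup A] [Module R A] {S : Set Γ} (hS : Subgroup.closure S = ⊤) :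
    Function.Injective (evalOn R A S) := by
  rw [injective_iff_map_eq_zero]
  intro c hc
  apply hom_eq_zero_of_closure c hS
  intro s hs
  exact congrFun hc ⟨s, hs⟩

/-! ### `HomPar N` is finite free over `ℤ` -/

theorem exists_finite_generators (N : ℕ) [NeZero N] :
    ∃ S : Set (Gamma0 N), S.Finite ∧ Subgroup.closure S = ⊤ := by
  have h := Fermat.Agent.S22.fg_Gamma0 N
  rw [Group.fg_iff] at h
  obtain ⟨S, hS, hfin⟩ := h
  exact ⟨S, hfin, hS⟩

instance instFiniteHomAll (N : ℕ) [NeZero N] : Module.Finite ℤ (Additive (Gamma0 N) →+ ℤ) := by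
  obtain ⟨S, hfin, hS⟩ := exists_finite_generators N
  have : Finite S := hfin
  exact Module.Finite.of_injective (evalOn ℤ ℤ S) (evalOn_injective ℤ ℤ hS)

instance instFiniteHomPar (N : ℕ) [NeZero N] : Module.Finite ℤ (HomPar N) :=
  Module.Finite.of_injective (parabolicHoms ℤ (Gamma0 N) ℤ).subtype Subtype.val_injective

instance instTorsionFreeHomAll (Γ : Type*) [Group Γ] :
    Module.IsTorsionFree ℤ (Additive Γ →+ ℤ) :=
  Function.Injective.moduleIsTorsionFree (N := Γ → ℤ)
    (fun c γ => c (Additive.ofMul γ))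
    (fun _ _ h => AddMonoidHom.ext fun γ => congrFun h (Additive.toMul γ))
    (fun _ _ => rfl)

instance instTorsionFreeHomPar (N : ℕ) : Module.IsTorsionFree ℤ (HomPar N) :=
  Function.Injective.moduleIsTorsionFree (parabolicHoms ℤ (Gamma0 N) ℤ).subtype
    Subtype.val_injective (fun _ _ => rfl)

instance instFreeHomPar (N : ℕ) [NeZero N] : Module.Free ℤ (HomPar N) :=
  Module.free_of_finite_type_torsion_free'

/-! ### The comparison map `ℂ ⊗ HomPar N → Hom(Γ₀(N), ℂ)` -/

/-- Coefficient change `ℤ → ℂ` on homomorphisms. -/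
def castHom (N : ℕ) : (Additive (Gamma0 N) →+ ℤ) →ₗ[ℤ] (Additive (Gamma0 N) →+ ℂ) where
  toFun c := (Int.castAddHom ℂ).comp c
  map_add' c d := by
    ext γ
    simp
  map_smul' m c := by
    ext γ
    simp

@[simp] theorem castHom_apply (c : Additive (Gamma0 N) →+ ℤ) (γ : Additive (Gamma0 N)) :
    castHom N c γ = ((c γ : ℤ) : ℂ) := rfl

/-- The inclusion `HomPar N → Hom(Γ₀(N), ℂ)`. -/
def homParCast (N : ℕ) : HomPar N →ₗ[ℤ] (Additive (Gamma0 N) →+ ℂ) :=
  (castHom N).comp (parabolicHoms ℤ (Gamma0 N) ℤ).subtype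

@[simp] theorem homParCast_apply (c : HomPar N) (γ : Additive (Gamma0 N)) :
    homParCast N c γ = (((c : Additive (Gamma0 N) →+ ℤ) γ : ℤ) : ℂ) := rfl

/-- The comparison map `Ψ : ℂ ⊗ HomPar N → Hom(Γ₀(N), ℂ)`, `z ⊗ c ↦ z • c`. -/
def compMap (N : ℕ) : ℂ ⊗[ℤ] HomPar N →ₗ[ℂ] (Additive (Gamma0 N) →+ ℂ) :=
  (homParCast N).liftBaseChange ℂ

@[simp] theorem compMap_tmul (z : ℂ) (c : HomPar N) (γ : Additive (Gamma0 N)) :
    compMap N (z ⊗ₜ[ℤ] c) γ = z * (((c : Additive (Gamma0 N) →+ ℤ) γ : ℤ) : ℂ) := by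
  simp [compMap, LinearMap.liftBaseChange_tmul]

theorem compMap_injective (N : ℕ) [NeZero N] : Function.Injective (compMap N) := by
  classical
  obtain ⟨S, hfin, hS⟩ := exists_finite_generators N
  have : Fintype S := hfin.fintype
  set evZ : HomPar N →ₗ[ℤ] (S → ℤ) :=
    (evalOn ℤ ℤ S).comp (parabolicHoms ℤ (Gamma0 N) ℤ).subtype with hevZ
  have hevZ_inj : Function.Injective evZ :=
    (evalOn_injective ℤ ℤ hS).comp Subtype.val_injective
  have hL : Function.Injective (LinearMap.lTensor ℂ evZ) :=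
    Module.Flat.lTensor_preserves_injective_linearMap evZ hevZ_inj
  have key : ∀ t : ℂ ⊗[ℤ] HomPar N,
      TensorProduct.piScalarRight ℤ ℂ ℂ S (LinearMap.lTensor ℂ evZ t) =
        evalOn ℂ ℂ S (compMap N t) := by
    intro t
    induction t using TensorProduct.induction_on with
    | zero => simp
    | tmul z c =>
      funext s
      simp [hevZ, mul_comm]
    | add x y hx hy => simp only [map_add, hx, hy]
  rw [injective_iff_map_eq_zero]
  intro t ht
  have h1 := key t
  rw [ht, map_zero] at h1
  have h2 : LinearMap.lTensor ℂ evZ t = 0 :=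
    (TensorProduct.piScalarRight ℤ ℂ ℂ S).injective (by rw [h1, map_zero])
  exact hL (by rw [h2, map_zero])

/-- Every parabolic homomorphism `Γ₀(N) → ℂ` is a `ℂ`-linear combination of `ℤ`-valued
parabolic homomorphisms. -/
theorem mem_range_compMap (N : ℕ) [NeZero N] {c : Additive (Gamma0 N) →+ ℂ}
    (hc : IsParabolicHom (Gamma0 N) c) : c ∈ LinearMap.range (compMap N) := by
  classical
  obtain ⟨S, hfin, hS⟩ := exists_finite_generators N
  -- the finitely generated subgroup of `ℂ` containing all values of `c`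
  set B : Submodule ℤ ℂ := Submodule.span ℤ ((fun s : Gamma0 N => c (Additive.ofMul s)) '' S)
    with hB
  have hBfg : B.FG := Submodule.fg_span (hfin.image _)
  have hmem : ∀ γ : Additive (Gamma0 N), c γ ∈ B := by
    let K : Subgroup (Gamma0 N) :=
      { carrier := {γ | c (Additive.ofMul γ) ∈ B}
        one_mem' := by simp
        mul_mem' := by
          intro a b ha hb
          simp only [Set.mem_ofPred_eq] at ha hb ⊢
          rw [ofMul_mul, map_add]
          exact B.add_mem ha hb
        inv_mem' := by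
          intro a ha
          simp only [Set.mem_ofPred_eq] at ha ⊢
          rw [ofMul_inv, map_neg]
          exact B.neg_mem ha }
    have hK : K = ⊤ := by
      rw [eq_top_iff, ← hS, Subgroup.closure_le]
      intro s hs
      exact Submodule.subset_span ⟨s, hs, rfl⟩
    intro γ
    have : Additive.toMul γ ∈ K := by rw [hK]; exact Subgroup.mem_top _
    exact this
  have : Module.Finite ℤ B := Module.Finite.of_fg hBfg
  have : Module.IsTorsionFree ℤ B :=
    Function.Injective.moduleIsTorsionFree B.subtype Subtype.val_injective (fun _ _ => rfl)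
  have : Module.Free ℤ B := Module.free_of_finite_type_torsion_free'
  let e := Module.Free.chooseBasis ℤ B
  have : Fintype (Module.Free.ChooseBasisIndex ℤ B) := Module.Free.ChooseBasisIndex.fintype ℤ B
  -- corestriction of `c` to `B`
  let c' : Additive (Gamma0 N) →+ B :=
    { toFun := fun γ => ⟨c γ, hmem γ⟩
      map_zero' := by ext; simp
      map_add' := fun a b => by ext; simp }
  -- coordinates
  let coord : Module.Free.ChooseBasisIndex ℤ B → (Additive (Gamma0 N) →+ ℤ) := fun k =>
    ((Finsupp.lapply k ∘ₗ e.repr.toLinearMap : B →ₗ[ℤ] ℤ).toAddMonoidHom).comp c'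
  have hcoord : ∀ k γ, coord k γ = e.repr (c' γ) k := fun k γ => rfl
  have hpar : ∀ k, coord k ∈ parabolicHoms ℤ (Gamma0 N) ℤ := by
    intro k γ hγ
    have h0 : c' (Additive.ofMul γ) = 0 := by
      ext
      exact hc γ hγ
    rw [hcoord, h0]
    simp
  refine ⟨∑ k, ((e k : B) : ℂ) ⊗ₜ[ℤ] (⟨coord k, hpar k⟩ : HomPar N), ?_⟩
  refine AddMonoidHom.ext fun γ => ?_
  rw [map_sum, AddMonoidHom.finsetSum_apply]
  have hrepr := e.sum_repr (c' γ)
  have h2 : ∑ k, (e.repr (c' γ) k) • ((e k : B) : ℂ) = c γ := by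
    have h3 : ((∑ k, e.repr (c' γ) k • e k : B) : ℂ) = ((c' γ : B) : ℂ) :=
      congrArg (fun x : B => (x : ℂ)) hrepr
    rw [Submodule.coe_sum] at h3
    simp only [Submodule.coe_smul] at h3
    exact h3
  rw [← h2]
  refine Finset.sum_congr rfl fun k _ => ?_
  rw [compMap_tmul, hcoord, zsmul_eq_mul, mul_comm]

end Fermat.Agent.F3EC
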