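/-
Cluster A (F3), work package A5: the period map is Hecke-equivariant,
`periodMap N (T_ℓ f) = T_ℓ (periodMap N f)` for `ℓ ∤ N`, where `T_ℓ` on `Hom(Γ₀(N), ℂ)` is the
coset formula `heckeHomAll`.  Owner: helper83.
-/
import Fermat.Agent.F3.EigenChar.Defs
import Fermat.Agent.S22.HeckeT
import Fermat.Agent.S21.Parabolic
import Fermat.Agent.S21.Injective

set_option autoImplicit false

noncomputable section

namespace Fermat.Agent.F3EC

open CongruenceSubgroup Matrix.SpecialLinearGroup ModularCurve ModularCurve.Period UpperHalfPlane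
open scoped MatrixGroups ModularForm Manifold
open P2MW.S_ModularForm_heckeT_slash_eq_self_of_mem_Gamma0.ModularForm.HeckeSlashInvariance

variable {N : ℕ} [NeZero N]

/-- The Eichler integral of S22 (weight `2`, i.e. `m = 0`) is the equivariant primitive of S21. -/
theorem eichler_eq_of_hasEquivariantPrimitive (f : CuspForm (Gamma0 N) 2) {F : ℍ → ℂ}
    (hF : HasEquivariantPrimitive N f F) :
    Fermat.Agent.S22.eichler (N := N) (m := 0) f = F := by
  apply Fermat.Agent.S22.eichler_eq (N := N) (m := 0) (f := f)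
  · exact Fermat.Agent.S21.mdiff_of_hasDerivAt hF.1
  · have := Fermat.Agent.S22.dH_eq_of_hasDerivAt hF.1
    simpa using this
  · exact hF.2.1

/-- weight `0` slash action of an element of `SL(2, ℤ)` is composition. -/
theorem slash_zero_mapGL_apply (E : ℍ → ℂ) (γ : SL(2, ℤ)) (τ : ℍ) :
    (E ∣[-((0 : ℕ) : ℤ)] (mapGL ℝ γ)) τ = E (γ • τ) := by
  rw [ModularForm.slash_apply]
  have hdet : (mapGL ℝ γ : GL (Fin 2) ℝ).det.val = 1 := by simp
  have hσ (x : ℂ) : σ (mapGL ℝ γ : GL (Fin 2) ℝ) x = x := by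
    simp [σ]
  rw [hσ, hdet]
  simp only [abs_one, Nat.cast_zero, neg_zero, zero_sub, zpow_zero, mul_one,
    one_zpow, Complex.ofReal_one]
  rfl

theorem periodFun_apply (f : CuspForm (Gamma0 N) 2) {F : ℍ → ℂ}
    (hF : HasEquivariantPrimitive N f F) (γ : Gamma0 N) (τ : ℍ) :
    Fermat.Agent.S22.periodFun (N := N) (m := 0) (γ : SL(2, ℤ)) f τ =
      periodMap N f (Additive.ofMul γ) := by
  rw [Fermat.Agent.S22.periodFun, Pi.sub_apply, slash_zero_mapGL_apply,
    eichler_eq_of_hasEquivariantPrimitive f hF, Fermat.Agent.S21.periodMap_apply N f hF]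
  have h1 := hF.2.2.1.sub_eq_period γ τ
  have h2 := hF.2.2.1.sub_eq_period γ UpperHalfPlane.I
  rw [h1, h2]

/-- weight `0` slash action of a Hecke representative on a constant function. -/
theorem slash_zero_heckeRep_const {ℓ : ℕ} (hℓ : ℓ ≠ 0) (y : OnePoint (ZMod ℓ)) (c : ℂ) (τ : ℍ) :
    ((ℓ : ℂ) ^ (0 + 1)) • (((fun _ : ℍ => c) ∣[-((0 : ℕ) : ℤ)] heckeRep ℓ y) τ) = c := by
  rw [ModularForm.slash_apply]
  have hdet : (heckeRep ℓ y).det.val = (ℓ : ℝ) := by
    rw [Matrix.GeneralLinearGroup.val_det_apply]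
    exact Fermat.Agent.S22.val_det_heckeRep hℓ y
  have hpos : (0 : ℝ) < (heckeRep ℓ y).det.val := by
    rw [hdet]; exact_mod_cast Nat.pos_of_ne_zero hℓ
  have hpos' : 0 < (heckeRep ℓ y).val.det := by
    rw [Fermat.Agent.S22.val_det_heckeRep hℓ y]; exact_mod_cast Nat.pos_of_ne_zero hℓ
  have hσ (x : ℂ) : σ (heckeRep ℓ y) x = x :=
    Fermat.Agent.S22.sigma_eq_self_of_det_pos hpos' x
  have hℓ' : (ℓ : ℂ) ≠ 0 := by exact_mod_cast hℓ
  rw [hσ, hdet]
  simp only [Nat.cast_zero, neg_zero, zero_sub, zpow_zero, mul_one, zero_add,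
    pow_one, smul_eq_mul]
  rw [abs_of_pos (by exact_mod_cast Nat.pos_of_ne_zero hℓ : (0 : ℝ) < (ℓ : ℝ))]
  push_cast
  field_simp

/-- **Hecke-equivariance of the period map.** -/
theorem periodMap_heckeT {ℓ : ℕ} [Fact ℓ.Prime] (hℓ : ℓ.Prime) (hℓN : ¬ ℓ ∣ N)
    (f : CuspForm (Gamma0 N) 2) :
    periodMap N (CuspForm.heckeTLin 2 hℓ hℓN f) = heckeHomAll hℓN ℂ (periodMap N f) := by
  obtain ⟨F, hF⟩ := Fermat.Agent.S21.exists_hasEquivariantPrimitive N f
  obtain ⟨G, hG⟩ := Fermat.Agent.S21.exists_hasEquivariantPrimitive N (CuspForm.heckeTLin 2 hℓ hℓN f)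
  refine AddMonoidHom.ext fun γ => ?_
  obtain ⟨γ, rfl⟩ := Additive.ofMul.surjective γ
  rw [heckeHomAll_apply, ← periodFun_apply _ hG γ UpperHalfPlane.I]
  have key := Fermat.Agent.S22.periodFun_heckeT (N := N) (m := 0) hℓ hℓN γ f
    (fun x => heckeCoset hℓN γ x) (fun x => heckeCoset_spec hℓN γ x)
  have key2 := congrFun key UpperHalfPlane.I
  refine key2.trans ?_
  rw [Finset.sum_apply]
  refine Finset.sum_congr rfl fun x _ => ?_
  have hconst : Fermat.Agent.S22.periodFun (N := N) (m := 0)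
      ((heckeCoset hℓN γ x : Gamma0 N) : SL(2, ℤ)) f =
      fun _ : ℍ => periodMap N f (Additive.ofMul (heckeCoset hℓN γ x)) := by
    funext τ
    exact periodFun_apply f hF _ τ
  rw [hconst, Pi.smul_apply]
  exact slash_zero_heckeRep_const hℓ.ne_zero _ _ _

end Fermat.Agent.F3EC
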