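/-
Cluster A (F3), work package A5: `F3.PeriodEigen N`.
For a normalised eigenform `g` of level `N` the period class of `g` is a nonzero simultaneous
eigenvector of the `T_ℓ` (`ℓ ∤ N`) in `ℂ ⊗ Hom_par(Γ₀(N), ℤ)` with eigenvalues `a_ℓ(g)`, and the
`a_ℓ(g)` are algebraic integers.  Owner: helper83.
-/
import Fermat.Agent.F3.EigenChar.Lattice
import Fermat.Agent.F3.EigenChar.Period
import Fermat.Agent.F3.EigenChar.Eigenform
import Fermat.Agent.F3.EigenclassGlue
import Fermat.Agent.S21.ReInvariant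

set_option autoImplicit false

noncomputable section

namespace Fermat.Agent.F3EC

open CongruenceSubgroup ModularCurve ModularCurve.Period UpperHalfPlane ModularFormClass
open scoped MatrixGroups TensorProduct

variable {N : ℕ}

/-! ### `T_ℓ` and the comparison map -/

theorem heckeHomAll_smul {ℓ : ℕ} [Fact ℓ.Prime] (hℓN : ¬ ℓ ∣ N) (z : ℂ)
    (c : Additive (Gamma0 N) →+ ℂ) :
    heckeHomAll hℓN ℂ (z • c) = z • heckeHomAll hℓN ℂ c := by
  refine AddMonoidHom.ext fun γ => ?_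
  obtain ⟨γ, rfl⟩ := Additive.ofMul.surjective γ
  simp [Finset.mul_sum]

theorem heckeHomAll_castHom {ℓ : ℕ} [Fact ℓ.Prime] (hℓN : ¬ ℓ ∣ N)
    (c : Additive (Gamma0 N) →+ ℤ) :
    heckeHomAll hℓN ℂ (castHom N c) = castHom N (heckeHomAll hℓN ℤ c) := by
  refine AddMonoidHom.ext fun γ => ?_
  obtain ⟨γ, rfl⟩ := Additive.ofMul.surjective γ
  simp

theorem compMap_heckeHom (ℓ : Nat.Primes) (hℓN : ¬ (ℓ : ℕ) ∣ N) (t : ℂ ⊗[ℤ] HomPar N) :
    haveI : Fact (ℓ : ℕ).Prime := ⟨ℓ.2⟩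
    compMap N ((heckeHom N ℓ).baseChange ℂ t) = heckeHomAll hℓN ℂ (compMap N t) := by
  have : Fact (ℓ : ℕ).Prime := ⟨ℓ.2⟩
  induction t using TensorProduct.induction_on with
  | zero => simp
  | tmul z c =>
    rw [LinearMap.baseChange_tmul]
    have h1 : compMap N (z ⊗ₜ[ℤ] c) = z • homParCast N c := by
      simp [compMap, LinearMap.liftBaseChange_tmul]
    have h2 : compMap N (z ⊗ₜ[ℤ] heckeHom N ℓ c) = z • homParCast N (heckeHom N ℓ c) := by
      simp [compMap, LinearMap.liftBaseChange_tmul]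
    rw [h1, h2, heckeHomAll_smul]
    congr 1
    show castHom N ((heckeHom N ℓ c : HomPar N) : Additive (Gamma0 N) →+ ℤ) =
      heckeHomAll hℓN ℂ (castHom N (c : Additive (Gamma0 N) →+ ℤ))
    rw [heckeHom_coe ℓ hℓN, heckeHomAll_castHom]
  | add x y hx hy => simp only [map_add, hx, hy]

/-! ### The period map -/

theorem periodMap_smul (N : ℕ) [NeZero N] (z : ℂ) (f : CuspForm (Gamma0 N) 2) :
    periodMap N (z • f) = z • periodMap N f := by
  obtain ⟨pml, hpml⟩ := Fermat.Agent.S21.existsPeriodMapLinear N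
  rw [← hpml, ← hpml, map_smul]

theorem periodMap_zero (N : ℕ) [NeZero N] : periodMap N (0 : CuspForm (Gamma0 N) 2) = 0 := by
  obtain ⟨pml, hpml⟩ := Fermat.Agent.S21.existsPeriodMapLinear N
  rw [← hpml, map_zero]

theorem periodMap_ne_zero (N : ℕ) [NeZero N] {f : CuspForm (Gamma0 N) 2} (hf : f ≠ 0) :
    periodMap N f ≠ 0 := by
  intro h0
  have hC : Fermat.Agent.S21.ReInvariantConst N := fun hH hinv hcusp =>
    Fermat.Agent.S21.const_of_re_invariant (Γ := Gamma0 N) (N := N)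
      (Fermat.Agent.S21.Gamma_le_Gamma0 N) hH hinv hcusp
  have hinj := Fermat.Agent.S21.periodHomPair_injective N hC
  have h1 : periodHomPair N (f, 0) = periodHomPair N (0, 0) := by
    rw [Fermat.Agent.S21.periodHomPair_apply, Fermat.Agent.S21.periodHomPair_apply, h0,
      periodMap_zero]
  have h2 := hinj h1
  exact hf (congrArg Prod.fst h2)

/-! ### The eigenvector -/

theorem exists_period_eigenvector (N : ℕ) [NeZero N] {g : CuspForm (Gamma0 N) 2}
    (hg : g.IsNormalizedEigenform) :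
    ∃ v : ℂ ⊗[ℤ] HomPar N, v ≠ 0 ∧
      ∀ ℓ : Nat.Primes, ¬ (ℓ : ℕ) ∣ N →
        (heckeHom N ℓ).baseChange ℂ v = (qCoeff ⇑g ℓ) • v := by
  obtain ⟨v, hv⟩ := mem_range_compMap N
    (mem_parabolicHoms_iff.mp (Fermat.Agent.S21.periodMap_mem_parabolicHoms N g))
  refine ⟨v, ?_, fun ℓ hℓN => ?_⟩
  · intro h0
    rw [h0, map_zero] at hv
    exact periodMap_ne_zero N (ne_zero_of_isNormalizedEigenform hg) hv.symm
  · have : Fact (ℓ : ℕ).Prime := ⟨ℓ.2⟩
    apply compMap_injective N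
    rw [compMap_heckeHom ℓ hℓN, map_smul, hv, ← periodMap_heckeT ℓ.2 hℓN,
      heckeTLin_eq_smul hg ℓ.2 hℓN, periodMap_smul]

/-- The eigenvalues `a_ℓ(g)`, `ℓ ∤ N`, of a normalised eigenform are algebraic integers. -/
theorem isIntegral_qCoeff (N : ℕ) [NeZero N] {g : CuspForm (Gamma0 N) 2}
    (hg : g.IsNormalizedEigenform) (ℓ : Nat.Primes) (hℓN : ¬ (ℓ : ℕ) ∣ N) :
    IsIntegral ℤ (qCoeff ⇑g ℓ) := by
  obtain ⟨v, hv0, hv⟩ := exists_period_eigenvector N hg
  have hev : Module.End.HasEigenvalue ((heckeHom N ℓ).baseChange ℂ) (qCoeff ⇑g ℓ) :=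
    Module.End.hasEigenvalue_of_hasEigenvector
      ⟨Module.End.mem_eigenspace_iff.mpr (hv ℓ hℓN), hv0⟩
  have hroot := (Module.End.hasEigenvalue_iff_isRoot_charpoly _ _).mp hev
  rw [LinearMap.charpoly_baseChange] at hroot
  refine ⟨(heckeHom N ℓ).charpoly, LinearMap.charpoly_monic _, ?_⟩
  rw [Polynomial.IsRoot.def, Polynomial.eval_map] at hroot
  exact hroot

/-- **(A5)** `F3.PeriodEigen N`. -/
theorem periodEigen (N : ℕ) [NeZero N] : Fermat.Agent.F3.PeriodEigen N := by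
  classical
  intro g hg
  obtain ⟨v, hv0, hv⟩ := exists_period_eigenvector N hg
  refine ⟨fun ℓ => if h : ¬ (ℓ : ℕ) ∣ N then ⟨qCoeff ⇑g ℓ, isIntegral_qCoeff N hg ℓ h⟩ else 0,
    fun ℓ hℓN => ?_, v, hv0, fun ℓ hℓN => ?_⟩
  · simp only [dif_pos hℓN]
  · simp only [dif_pos hℓN]
    exact hv ℓ hℓN

end Fermat.Agent.F3EC
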