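/-
Cluster T / S35, work package (H) (requested by helper36); proved in cluster L, WP DEG
(helper83, helper88).  Explicit named corollaries of `LDeg.degStatement` on
`HomPar K = Hom_par(Γ₀(K), ℤ)`:

* `tr = coresPar N q : HomPar (N q) → HomPar N`, the transfer along the inclusion
  `Γ₀(N q) ⊂ Γ₀(N)`, and its twist `tr_δ = coresParD N q`, the transfer along
  `γ ↦ δ γ δ⁻¹ = [a, q b; c / q, d]`, `δ = diag(q, 1)` (the `W_q`-twist of `tr`),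
  commute with the Hecke operators `T_ℓ = heckeHom _ ℓ`, `ℓ ∤ N q`;
* so do the restrictions `resPar`, `resParD`;
* `tr ∘ res = q + 1 = tr_δ ∘ res_δ`, `tr ∘ res_δ = T_q = tr_δ ∘ res`.
-/
import Fermat.Agent.L.Degen.Main

set_option autoImplicit false

noncomputable section

namespace Fermat.Agent.LDeg

open CongruenceSubgroup Matrix.SpecialLinearGroup ModularCurve.Period
open Fermat.Agent.F3EC Fermat.Agent.L
open scoped MatrixGroups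

variable {N q : ℕ} [NeZero q]

/-- The transfer `HomPar (N q) → HomPar N` commutes with `T_ℓ`, `ℓ ∤ N q`. -/
theorem coresPar_heckeHom (hq : q.Prime) (hqN : ¬ q ∣ N) (ℓ : Nat.Primes)
    (hℓ : ¬ (ℓ : ℕ) ∣ N * q) (c : HomPar (N * q)) :
    coresPar N q (heckeHom (N * q) ℓ c) = heckeHom N ℓ (coresPar N q c) := by
  have : Fact q.Prime := ⟨hq⟩
  have : Fact (ℓ : ℕ).Prime := ⟨ℓ.2⟩
  have hℓN : ¬ (ℓ : ℕ) ∣ N := fun h' => hℓ (Dvd.dvd.mul_right h' q)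
  apply Subtype.ext
  rw [coresPar_coe, heckeHom_coe ℓ hℓ, heckeHom_coe ℓ hℓN, coresPar_coe]
  exact coresAll_heckeHomAll hqN hℓN hℓ ℤ c.1

/-- The twisted transfer `HomPar (N q) → HomPar N` commutes with `T_ℓ`, `ℓ ∤ N q`. -/
theorem coresParD_heckeHom (hq : q.Prime) (hqN : ¬ q ∣ N) (ℓ : Nat.Primes)
    (hℓ : ¬ (ℓ : ℕ) ∣ N * q) (c : HomPar (N * q)) :
    coresParD N q (heckeHom (N * q) ℓ c) = heckeHom N ℓ (coresParD N q c) := by
  have : Fact q.Prime := ⟨hq⟩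
  have : Fact (ℓ : ℕ).Prime := ⟨ℓ.2⟩
  have hℓN : ¬ (ℓ : ℕ) ∣ N := fun h' => hℓ (Dvd.dvd.mul_right h' q)
  apply Subtype.ext
  rw [coresParD_coe, heckeHom_coe ℓ hℓ, heckeHom_coe ℓ hℓN, coresParD_coe]
  exact coresAllD_heckeHomAll hqN hℓN hℓ ℤ c.1

omit [NeZero q] in
/-- The restriction `HomPar N → HomPar (N q)` commutes with `T_ℓ`, `ℓ ∤ N q`. -/
theorem resPar_heckeHom (ℓ : Nat.Primes) (hℓ : ¬ (ℓ : ℕ) ∣ N * q) (c : HomPar N) :
    resPar N q (heckeHom N ℓ c) = heckeHom (N * q) ℓ (resPar N q c) := by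
  have : Fact (ℓ : ℕ).Prime := ⟨ℓ.2⟩
  have hℓN : ¬ (ℓ : ℕ) ∣ N := fun h' => hℓ (Dvd.dvd.mul_right h' q)
  apply Subtype.ext
  rw [heckeHom_coe ℓ hℓ]
  show resAll N q ℤ ((heckeHom N ℓ c : HomPar N) : Additive (Gamma0 N) →+ ℤ) = _
  rw [heckeHom_coe ℓ hℓN]
  exact resAll_heckeHomAll hℓN hℓ ℤ c.1

/-- The twisted restriction `HomPar N → HomPar (N q)` commutes with `T_ℓ`, `ℓ ∤ N q`. -/
theorem resParD_heckeHom (ℓ : Nat.Primes) (hℓ : ¬ (ℓ : ℕ) ∣ N * q) (c : HomPar N) :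
    resParD N q (heckeHom N ℓ c) = heckeHom (N * q) ℓ (resParD N q c) := by
  have : Fact (ℓ : ℕ).Prime := ⟨ℓ.2⟩
  have hℓN : ¬ (ℓ : ℕ) ∣ N := fun h' => hℓ (Dvd.dvd.mul_right h' q)
  apply Subtype.ext
  rw [heckeHom_coe ℓ hℓ]
  show resAllD N q ℤ ((heckeHom N ℓ c : HomPar N) : Additive (Gamma0 N) →+ ℤ) = _
  rw [heckeHom_coe ℓ hℓN]
  exact resAllD_heckeHomAll hℓN hℓ ℤ c.1

/-- `tr ∘ res_δ = T_q`. -/
theorem coresPar_resParD_eq (hq : q.Prime) (hqN : ¬ q ∣ N) (c : HomPar N) :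
    coresPar N q (resParD N q c) = heckeHom N ⟨q, hq⟩ c := by
  have : Fact q.Prime := ⟨hq⟩
  apply Subtype.ext
  rw [coresPar_coe, heckeHom_coe ⟨q, hq⟩ hqN]
  exact coresAll_resAllD hqN ℤ c.1

/-- `tr_δ ∘ res = T_q`. -/
theorem coresParD_resPar_eq (hq : q.Prime) (hqN : ¬ q ∣ N) (c : HomPar N) :
    coresParD N q (resPar N q c) = heckeHom N ⟨q, hq⟩ c := by
  have : Fact q.Prime := ⟨hq⟩
  apply Subtype.ext
  rw [coresParD_coe, heckeHom_coe ⟨q, hq⟩ hqN]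
  exact coresAllD_resAll hqN ℤ c.1

end Fermat.Agent.LDeg
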